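/-
Program B' (S34), leaf L1-TwoExt (helper6): proof of `Fermat.Agent.S34.H64.TwoExtStatement`
("exactly two extensions" of a discrete valuation ring in an extension of degree `q + 1`).
Mathlib only (plus the statement file).
-/
import Mathlib
import Fermat.Agent.S34.H64.TwoExtDefs

set_option autoImplicit false
set_option linter.style.haveILetI false
set_option linter.deprecated false

namespace Fermat.Agent.S34.H6

open Fermat.Agent.S34.H64

section gen

variable {F : Type*} [Field F]

theorem mem_nonunits_iff_inv (A : ValuationSubring F) (x : F) :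
    x ∈ A.nonunits ↔ x = 0 ∨ x⁻¹ ∉ A := by
  rw [ValuationSubring.mem_nonunits_iff]
  by_cases hx : x = 0
  · simp [hx]
  · have hpos : 0 < A.valuation x := zero_lt_iff.mpr ((map_ne_zero _).mpr hx)
    rw [← ValuationSubring.valuation_le_one_iff, map_inv₀, not_le, one_lt_inv₀ hpos]
    simp [hx]

theorem not_mem_nonunits_iff (A : ValuationSubring F) (x : F) :
    x ∉ A.nonunits ↔ x ≠ 0 ∧ x⁻¹ ∈ A := by
  rw [mem_nonunits_iff_inv]; tauto

theorem mul_mem_nonunits_left (A : ValuationSubring F) {x y : F} (hx : x ∈ A.nonunits)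
    (hy : y ∈ A) : x * y ∈ A.nonunits := by
  rw [ValuationSubring.mem_nonunits_iff] at hx ⊢
  have hy' : A.valuation y ≤ 1 := (A.valuation_le_one_iff y).mpr hy
  calc A.valuation (x * y) = A.valuation x * A.valuation y := map_mul _ _ _
    _ ≤ A.valuation x * 1 := mul_le_mul' le_rfl hy'
    _ < 1 := by simpa using hx

theorem mem_nonunits_of_mul_mem (A : ValuationSubring F) {x y : F} (hxy : x * y ∈ A.nonunits)
    (hy : y ∉ A.nonunits) (hx : x ∈ A) : x ∈ A.nonunits := by
  rw [ValuationSubring.mem_nonunits_iff] at hxy hy ⊢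
  have hx' : A.valuation x ≤ 1 := (A.valuation_le_one_iff x).mpr hx
  rcases hx'.lt_or_eq with h | h
  · exact h
  · exfalso
    apply hy
    rw [map_mul, h, one_mul] at hxy
    exact hxy

theorem add_mem_nonunits (A : ValuationSubring F) {x y : F} (hx : x ∈ A.nonunits)
    (hy : y ∈ A.nonunits) : x + y ∈ A.nonunits := by
  rw [ValuationSubring.mem_nonunits_iff] at hx hy ⊢
  exact lt_of_le_of_lt (Valuation.map_add _ _ _) (max_lt hx hy)

theorem sub_mem_nonunits (A : ValuationSubring F) {x y : F} (hx : x ∈ A.nonunits)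
    (hy : y ∈ A.nonunits) : x - y ∈ A.nonunits := by
  rw [ValuationSubring.mem_nonunits_iff] at hx hy ⊢
  exact lt_of_le_of_lt (Valuation.map_sub _ _ _) (max_lt hx hy)

theorem pow_sub_pow_mem_nonunits (A : ValuationSubring F) {x y : F} (hx : x ∈ A) (hy : y ∈ A)
    (hxy : x - y ∈ A.nonunits) (n : ℕ) : x ^ n - y ^ n ∈ A.nonunits := by
  obtain ⟨z, hz⟩ := sub_dvd_pow_sub_pow (⟨x, hx⟩ : A) ⟨y, hy⟩ n
  have h1 : x ^ n - y ^ n = (x - y) * (z : F) := by
    have := congrArg (fun w : A => (w : F)) hz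
    simpa using this
  rw [h1]
  exact mul_mem_nonunits_left A hxy z.2

end gen

section quot

variable {R S : Type*} [CommRing R] [CommRing S] [Algebra R S]

theorem exists_sub_mem_of_inertiaDeg_eq_one (p : Ideal R) [p.IsMaximal] (P : Ideal S)
    [P.LiesOver p] (hf : p.inertiaDeg' P = 1) (c : S) : ∃ v : R, c - algebraMap R S v ∈ P := by
  rw [Ideal.inertiaDeg'_algebraMap] at hf
  letI := Ideal.Quotient.field p
  obtain ⟨v₀, hv₀, -⟩ := finrank_eq_one_iff'.mp hf
  have hnt : Nontrivial (S ⧸ P) := nontrivial_of_ne v₀ 0 hv₀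
  obtain ⟨r, hr⟩ := (finrank_eq_one_iff_of_nonzero' (1 : S ⧸ P) one_ne_zero).mp hf
    (Ideal.Quotient.mk P c)
  obtain ⟨v, rfl⟩ := Ideal.Quotient.mk_surjective r
  refine ⟨v, ?_⟩
  rw [Algebra.smul_def, mul_one, Ideal.Quotient.algebraMap_mk_of_liesOver] at hr
  exact Ideal.Quotient.eq.mp hr.symm

theorem le_inertiaDeg_of_pow [Module.Finite R S] (p : Ideal R) [p.IsMaximal] (P : Ideal S)
    [P.IsMaximal] [P.LiesOver p] (q : ℕ) (hq : q.Prime) (hqP : (q : S) ∈ P) (c : S) (v₀ : R)
    (hc : c ^ q - algebraMap R S v₀ ∈ P) (hcV : ∀ v : R, c - algebraMap R S v ∉ P) :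
    q ≤ p.inertiaDeg' P := by
  rw [Ideal.inertiaDeg'_algebraMap]
  letI := Ideal.Quotient.field p
  letI := Ideal.Quotient.field P
  haveI : Fact q.Prime := ⟨hq⟩
  haveI : CharP (S ⧸ P) q := by
    rw [CharP.charP_iff_prime_eq_zero hq]
    have h1 : ((q : ℕ) : S ⧸ P) = Ideal.Quotient.mk P (q : S) := by simp
    rw [h1]
    exact Ideal.Quotient.eq_zero_iff_mem.mpr hqP
  set y : S ⧸ P := Ideal.Quotient.mk P c with hy
  set a : R ⧸ p := Ideal.Quotient.mk p v₀ with ha
  have h1 : y ^ q = algebraMap (R ⧸ p) (S ⧸ P) a := by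
    rw [ha, Ideal.Quotient.algebraMap_mk_of_liesOver, hy, ← map_pow]
    exact Ideal.Quotient.eq.mpr hc
  have h2 : ∀ b : R ⧸ p, y ≠ algebraMap (R ⧸ p) (S ⧸ P) b := by
    intro b hb
    obtain ⟨v, rfl⟩ := Ideal.Quotient.mk_surjective b
    rw [Ideal.Quotient.algebraMap_mk_of_liesOver, hy] at hb
    exact hcV v (Ideal.Quotient.eq.mp hb)
  have hirr : Irreducible (Polynomial.X ^ q - Polynomial.C a : Polynomial (R ⧸ p)) := by
    apply X_pow_sub_C_irreducible_of_prime hq
    intro b hb
    apply h2 b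
    have h3 : (y - algebraMap (R ⧸ p) (S ⧸ P) b) ^ q = 0 := by
      rw [sub_pow_char, h1, ← map_pow, hb, sub_self]
    exact sub_eq_zero.mp (pow_eq_zero_iff hq.ne_zero |>.mp h3)
  have hmin : (Polynomial.X ^ q - Polynomial.C a : Polynomial (R ⧸ p)) = minpoly (R ⧸ p) y :=
    minpoly.eq_of_irreducible_of_monic hirr (by simp [h1])
      (Polynomial.monic_X_pow_sub_C a hq.ne_zero)
  calc q = (Polynomial.X ^ q - Polynomial.C a : Polynomial (R ⧸ p)).natDegree :=
        Polynomial.natDegree_X_pow_sub_C.symm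
    _ = (minpoly (R ⧸ p) y).natDegree := by rw [hmin]
    _ ≤ Module.finrank (R ⧸ p) (S ⧸ P) := minpoly.natDegree_le y

end quot

section overV

variable {K : Type*} {L : Type*} [Field K] [Field L] [Algebra K L]
variable (V : ValuationSubring K) (O : ValuationSubring L)
  (hO : O.comap (algebraMap K L) = V)

include hO

theorem algebraMap_mem_iff (v : K) : algebraMap K L v ∈ O ↔ v ∈ V := by
  rw [← hO]; rfl

theorem algebraMap_mem_nonunits_iff (v : K) :
    algebraMap K L v ∈ O.nonunits ↔ v ∈ V.nonunits := by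
  rw [mem_nonunits_iff_inv, mem_nonunits_iff_inv, ← map_inv₀, algebraMap_mem_iff V O hO,
    map_eq_zero]

theorem mem_of_isIntegral {g : L} (hg : IsIntegral V g) : g ∈ O := by
  let f : V →+* O :=
    { toFun := fun v => ⟨algebraMap K L (v : K), (algebraMap_mem_iff V O hO _).mpr v.2⟩
      map_one' := Subtype.ext (map_one _)
      map_mul' := fun a b => Subtype.ext (map_mul _ _ _)
      map_zero' := Subtype.ext (map_zero _)
      map_add' := fun a b => Subtype.ext (map_add _ _ _) }
  let _ : Algebra V O := f.toAlgebra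
  have _ : IsScalarTower V O L := IsScalarTower.of_algebraMap_eq (fun x => rfl)
  have h2 : IsIntegral O g := hg.tower_top
  obtain ⟨y, hy⟩ := IsIntegrallyClosed.isIntegral_iff.mp h2
  rw [← hy]
  exact y.2

/-- The prime ideal of the integral closure of `V` in `L` cut out by a valuation subring `O`
over `V`. -/
def primeOf : Ideal (integralClosure V L) where
  carrier := {b | (b : L) ∈ O.nonunits}
  add_mem' := fun {a b} ha hb => by
    have ha' : O.valuation (a : L) < 1 := (ValuationSubring.mem_nonunits_iff O).mp ha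
    have hb' : O.valuation (b : L) < 1 := (ValuationSubring.mem_nonunits_iff O).mp hb
    exact (ValuationSubring.mem_nonunits_iff O).mpr
      (lt_of_le_of_lt (Valuation.map_add _ _ _) (max_lt ha' hb'))
  zero_mem' := by
    show ((0 : integralClosure V L) : L) ∈ O.nonunits
    simp
  smul_mem' := fun c x hx => by
    show ((c • x : integralClosure V L) : L) ∈ O.nonunits
    have hx' : (x : L) ∈ O.nonunits := hx
    have h1 : ((c • x : integralClosure V L) : L) = (x : L) * (c : L) := by
      rw [smul_eq_mul, mul_comm]; rfl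
    rw [h1]
    exact mul_mem_nonunits_left O hx' (mem_of_isIntegral V O hO c.2)

theorem mem_primeOf (b : integralClosure V L) :
    b ∈ primeOf V O hO ↔ (b : L) ∈ O.nonunits := Iff.rfl

theorem primeOf_isPrime : (primeOf V O hO).IsPrime := by
  rw [Ideal.isPrime_iff]
  refine ⟨?_, ?_⟩
  · rw [Ideal.ne_top_iff_one, mem_primeOf]
    simp [ValuationSubring.mem_nonunits_iff]
  · intro x y hxy
    by_contra h
    push Not at h
    rw [mem_primeOf] at hxy h
    rw [mem_primeOf] at h
    exact h.1 (mem_nonunits_of_mul_mem O hxy h.2 (mem_of_isIntegral V O hO x.2))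

theorem primeOf_liesOver : (primeOf V O hO).LiesOver (IsLocalRing.maximalIdeal V) := by
  constructor
  ext a
  rw [Ideal.under_def, Ideal.mem_comap, mem_primeOf]
  have h1 : ((algebraMap V (integralClosure V L) a : integralClosure V L) : L)
      = algebraMap K L (a : K) := rfl
  rw [h1, algebraMap_mem_nonunits_iff V O hO, ValuationSubring.coe_mem_nonunits_iff]

theorem mem_of_frac {a s : integralClosure V L} (hs : s ∉ primeOf V O hO) {x : L}
    (h : x * (s : L) = (a : L)) : x ∈ O := by
  rw [mem_primeOf, not_mem_nonunits_iff] at hs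
  have hx : x = (a : L) * (s : L)⁻¹ := by
    rw [← h, mul_assoc, mul_inv_cancel₀ hs.1, mul_one]
  rw [hx]
  exact O.mul_mem _ _ (mem_of_isIntegral V O hO a.2) hs.2

theorem exists_frac [IsDedekindDomain (integralClosure V L)]
    [IsFractionRing (integralClosure V L) L] (hP0 : primeOf V O hO ≠ ⊥) {x : L} (hx : x ∈ O) :
    ∃ a s : integralClosure V L, s ∉ primeOf V O hO ∧ x * (s : L) = (a : L) := by
  classical
  by_cases hx0 : x = 0
  · refine ⟨0, 1, ?_, by simp [hx0]⟩
    rw [mem_primeOf]
    simp [ValuationSubring.mem_nonunits_iff]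
  have hPp := primeOf_isPrime V O hO
  let W := Localization.subalgebra.ofField L (primeOf V O hO).primeCompl
    (primeOf V O hO).primeCompl_le_nonZeroDivisors
  have hloc : IsLocalization.AtPrime W (primeOf V O hO) :=
    Localization.subalgebra.isLocalization_ofField L (primeOf V O hO).primeCompl _
  have hdvr : IsDiscreteValuationRing W :=
    IsLocalization.AtPrime.isDiscreteValuationRing_of_dedekind_domain (integralClosure V L) hP0 W
  rcases ValuationRing.isInteger_or_isInteger W x with ⟨w, hw⟩ | ⟨w, hw⟩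
  · obtain ⟨a, s, hs, hxas⟩ := w.2
    have hsP : s ∉ primeOf V O hO := hs
    refine ⟨a, s, hsP, ?_⟩
    have hw' : (w : L) = x := hw
    have hs0 : (s : L) ≠ 0 := by
      intro h0
      apply hsP
      rw [mem_primeOf, h0]
      simp
    have h2 : (w : L) = (a : L) * (s : L)⁻¹ := hxas
    rw [← hw', h2, mul_assoc, inv_mul_cancel₀ hs0, mul_one]
  · obtain ⟨a, s, hs, hxas⟩ := w.2
    have hw' : (w : L) = x⁻¹ := hw
    have h2 : (w : L) = (a : L) * (s : L)⁻¹ := hxas
    have hs' : (s : L) ∉ O.nonunits := hs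
    have hs0 : (s : L) ≠ 0 := ((not_mem_nonunits_iff O _).mp hs').1
    have hxa : x * (a : L) = (s : L) := by
      have h3 : x⁻¹ * (s : L) = (a : L) := by
        rw [← hw', h2, mul_assoc, inv_mul_cancel₀ hs0, mul_one]
      rw [← h3, ← mul_assoc, mul_inv_cancel₀ hx0, one_mul]
    refine ⟨s, a, ?_, hxa⟩
    intro ha
    rw [mem_primeOf] at ha
    apply hs'
    rw [← hxa, mul_comm]
    exact mul_mem_nonunits_left O ha hx

theorem exists_residue_rep [IsDedekindDomain (integralClosure V L)]
    [IsFractionRing (integralClosure V L) L] (hP0 : primeOf V O hO ≠ ⊥) {x : L} (hx : x ∈ O) :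
    ∃ c : integralClosure V L, x - (c : L) ∈ O.nonunits := by
  obtain ⟨a, s, hs, hxs⟩ := exists_frac V O hO hP0 hx
  have hmax : (primeOf V O hO).IsMaximal := (primeOf_isPrime V O hO).isMaximal hP0
  obtain ⟨t, i, hi, hti⟩ := hmax.exists_inv hs
  refine ⟨a * t, ?_⟩
  have h1 : x - ((a * t : integralClosure V L) : L) = (i : L) * x := by
    have h2 : (t : L) * (s : L) + (i : L) = 1 := by
      have := congrArg (fun z : integralClosure V L => (z : L)) hti
      simpa using this
    have h3 : ((a * t : integralClosure V L) : L) = (a : L) * (t : L) := rfl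
    rw [h3, ← hxs]
    linear_combination (-x) * h2
  rw [h1]
  exact mul_mem_nonunits_left O hi hx

theorem unif_of_ramificationIdx [IsDedekindDomain (integralClosure V L)]
    [IsFractionRing (integralClosure V L) L] (hP0 : primeOf V O hO ≠ ⊥)
    (he : (IsLocalRing.maximalIdeal V).ramificationIdx' (primeOf V O hO) = 1)
    (π : K) (hπ : π ∈ V.nonunits) (hgen : ∀ a ∈ V.nonunits, a / π ∈ V) (g : L)
    (hg : g ∈ O.nonunits) : g / algebraMap K L π ∈ O := by
  by_cases hπ0 : π = 0
  · simp [hπ0]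
  by_contra hcon
  have hg0 : g ≠ 0 := by
    rintro rfl
    apply hcon
    simp
  have hπL0 : algebraMap K L π ≠ 0 := (map_ne_zero _).mpr hπ0
  have hh : algebraMap K L π / g ∈ O.nonunits := by
    rw [mem_nonunits_iff_inv]
    right
    rwa [inv_div]
  have hPp := primeOf_isPrime V O hO
  obtain ⟨a, s, hs, has⟩ := exists_frac V O hO hP0 (ValuationSubring.nonunits_subset hg)
  obtain ⟨b, t, ht, hbt⟩ := exists_frac V O hO hP0 (ValuationSubring.nonunits_subset hh)
  have haP : a ∈ primeOf V O hO := by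
    rw [mem_primeOf, ← has]
    exact mul_mem_nonunits_left O hg (mem_of_isIntegral V O hO s.2)
  have hbP : b ∈ primeOf V O hO := by
    rw [mem_primeOf, ← hbt]
    exact mul_mem_nonunits_left O hh (mem_of_isIntegral V O hO t.2)
  let π' : V := ⟨π, ValuationSubring.nonunits_subset hπ⟩
  have hprod : algebraMap V (integralClosure V L) π' * (s * t) = a * b := by
    apply Subtype.ext
    show algebraMap K L π * ((s : L) * (t : L)) = (a : L) * (b : L)
    rw [← has, ← hbt]
    field_simp
  have hmem : algebraMap V (integralClosure V L) π' * (s * t) ∈ (primeOf V O hO) ^ 2 := by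
    rw [hprod, pow_two]
    exact Ideal.mul_mem_mul haP hbP
  have hrad : ((primeOf V O hO) ^ 2).radical = primeOf V O hO := by
    rw [Ideal.radical_pow _ two_ne_zero, hPp.radical]
  have hprim : ((primeOf V O hO) ^ 2).IsPrimary := by
    apply Ideal.isPrimary_of_isMaximal_radical
    rw [hrad]
    exact hPp.isMaximal hP0
  rcases (Ideal.isPrimary_iff.mp hprim).2 hmem with h1 | h1
  · have hle : Ideal.map (algebraMap V (integralClosure V L)) (IsLocalRing.maximalIdeal V)
        ≤ (primeOf V O hO) ^ 2 := by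
      rw [Ideal.map_le_iff_le_comap]
      intro c hc
      rw [Ideal.mem_comap]
      have hc' : (c : K) ∈ V.nonunits := ValuationSubring.coe_mem_nonunits_iff.mpr hc
      have hcd : c = π' * ⟨(c : K) / π, hgen _ hc'⟩ := by
        apply Subtype.ext
        show (c : K) = π * ((c : K) / π)
        field_simp
      rw [hcd, map_mul]
      exact Ideal.mul_mem_right _ _ h1
    have hle1 : Ideal.map (algebraMap V (integralClosure V L)) (IsLocalRing.maximalIdeal V)
        ≤ primeOf V O hO := hle.trans (Ideal.pow_le_self two_ne_zero)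
    exact (Ideal.ramificationIdx'_ne_one_iff hle1).mpr hle he
  · rw [hrad] at h1
    rcases hPp.mem_or_mem h1 with h | h
    · exact hs h
    · exact ht h

end overV

section det

variable {K : Type*} {L : Type*} [Field K] [Field L] [Algebra K L]
variable (V : ValuationSubring K)

theorem eq_of_primeOf_eq [IsDedekindDomain (integralClosure V L)]
    [IsFractionRing (integralClosure V L) L] (O O' : ValuationSubring L)
    (hO : O.comap (algebraMap K L) = V) (hO' : O'.comap (algebraMap K L) = V)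
    (hP0 : primeOf V O hO ≠ ⊥) (h : primeOf V O hO = primeOf V O' hO') : O = O' := by
  have key : ∀ (O₁ O₂ : ValuationSubring L) (h₁ : O₁.comap (algebraMap K L) = V)
      (h₂ : O₂.comap (algebraMap K L) = V), primeOf V O₁ h₁ ≠ ⊥ →
      primeOf V O₁ h₁ = primeOf V O₂ h₂ → ∀ x ∈ O₁, x ∈ O₂ := by
    intro O₁ O₂ h₁ h₂ h0 h12 x hx
    obtain ⟨a, s, hs, hxs⟩ := exists_frac V O₁ h₁ h0 hx
    rw [h12] at hs
    exact mem_of_frac V O₂ h₂ hs hxs
  ext x
  exact ⟨key O O' hO hO' hP0 h x, key O' O hO' hO (h ▸ hP0) h.symm x⟩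

end det

section main

universe u v

/-- **The two-extension lemma** (`Fermat.Agent.S34.H64.TwoExtStatement`). -/
theorem twoExtStatement : TwoExtStatement.{u, v} := by
  intro K L _ _ _ _ _ V _ q hq hqV hdeg O₁ O₂ hO₁ hO₂ hne y hy hyq hyV
  classical
  haveI : IsDedekindDomain (integralClosure V L) := integralClosure.isDedekindDomain V K L
  haveI : IsFractionRing (integralClosure V L) L :=
    integralClosure.isFractionRing_of_finite_extension K L
  haveI : Module.Finite V (integralClosure V L) :=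
    IsIntegralClosure.finite V K L (integralClosure V L)
  have hinj : Function.Injective (algebraMap V (integralClosure V L)) := by
    intro a b hab
    have h1 : algebraMap K L (a : K) = algebraMap K L (b : K) :=
      congrArg (fun z : integralClosure V L => (z : L)) hab
    exact Subtype.ext ((algebraMap K L).injective h1)
  haveI : Module.IsTorsionFree V (integralClosure V L) :=
    Module.isTorsionFree_iff_algebraMap_injective.mpr hinj
  have hp0 : IsLocalRing.maximalIdeal V ≠ ⊥ := IsDiscreteValuationRing.not_a_field V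
  haveI hP₁ := primeOf_isPrime V O₁ hO₁
  haveI hP₂ := primeOf_isPrime V O₂ hO₂
  haveI hL₁ := primeOf_liesOver V O₁ hO₁
  haveI hL₂ := primeOf_liesOver V O₂ hO₂
  have hP₁0 : primeOf V O₁ hO₁ ≠ ⊥ := Ideal.ne_bot_of_liesOver_of_ne_bot hp0 _
  have hP₂0 : primeOf V O₂ hO₂ ≠ ⊥ := Ideal.ne_bot_of_liesOver_of_ne_bot hp0 _
  haveI hM₂ : (primeOf V O₂ hO₂).IsMaximal := hP₂.isMaximal hP₂0
  have hP12 : primeOf V O₁ hO₁ ≠ primeOf V O₂ hO₂ :=
    fun h => hne (eq_of_primeOf_eq V O₁ O₂ hO₁ hO₂ hP₁0 h)
  have hmem₁ : primeOf V O₁ hO₁ ∈ IsDedekindDomain.primesOverFinset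
      (IsLocalRing.maximalIdeal V) (integralClosure V L) :=
    (IsDedekindDomain.mem_primesOverFinset_iff hp0 _).mpr ⟨hP₁, hL₁⟩
  have hmem₂ : primeOf V O₂ hO₂ ∈ IsDedekindDomain.primesOverFinset
      (IsLocalRing.maximalIdeal V) (integralClosure V L) :=
    (IsDedekindDomain.mem_primesOverFinset_iff hp0 _).mpr ⟨hP₂, hL₂⟩
  -- the residue degree at `O₂` is at least `q`
  have hf₂ : q ≤ (IsLocalRing.maximalIdeal V).inertiaDeg' (primeOf V O₂ hO₂) := by
    obtain ⟨c, hc⟩ := exists_residue_rep V O₂ hO₂ hP₂0 hy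
    obtain ⟨v₀, hv₀V, hv₀⟩ := hyq
    have hcO : (c : L) ∈ O₂ := mem_of_isIntegral V O₂ hO₂ c.2
    refine le_inertiaDeg_of_pow _ _ q hq ?_ c ⟨v₀, hv₀V⟩ ?_ ?_
    · rw [mem_primeOf]
      have h1 : (((q : ℕ) : integralClosure V L) : L) = algebraMap K L (q : K) := by simp
      rw [h1, algebraMap_mem_nonunits_iff V O₂ hO₂]
      exact hqV
    · rw [mem_primeOf]
      have h1 : ((c ^ q - algebraMap V (integralClosure V L) ⟨v₀, hv₀V⟩ :
          integralClosure V L) : L) = (y ^ q - algebraMap K L v₀) - (y ^ q - (c : L) ^ q) := by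
        have h2 : ((c ^ q - algebraMap V (integralClosure V L) ⟨v₀, hv₀V⟩ :
          integralClosure V L) : L) = (c : L) ^ q - algebraMap K L v₀ := rfl
        rw [h2]
        ring
      rw [h1]
      exact sub_mem_nonunits O₂ hv₀ (pow_sub_pow_mem_nonunits O₂ hy hcO hc q)
    · intro v hv
      rw [mem_primeOf] at hv
      apply hyV v v.2
      have h1 : y - algebraMap K L (v : K) = (y - (c : L)) + ((c : L) - algebraMap K L (v : K)) := by
        ring
      rw [h1]
      exact add_mem_nonunits O₂ hc hv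
  -- positivity of the local degrees
  have he₁ : (IsLocalRing.maximalIdeal V).ramificationIdx' (primeOf V O₁ hO₁) ≠ 0 :=
    Ideal.IsDedekindDomain.ramificationIdx'_ne_zero_of_liesOver _ hp0
  have he₂ : (IsLocalRing.maximalIdeal V).ramificationIdx' (primeOf V O₂ hO₂) ≠ 0 :=
    Ideal.IsDedekindDomain.ramificationIdx'_ne_zero_of_liesOver _ hp0
  have hf₁ : (IsLocalRing.maximalIdeal V).inertiaDeg' (primeOf V O₁ hO₁) ≠ 0 :=
    Ideal.inertiaDeg'_ne_zero _ _
  -- the fundamental identity
  have hsum := Ideal.sum_ramification_inertia (integralClosure V L) K L hp0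
  rw [hdeg, ← Finset.add_sum_erase _ _ hmem₁,
    ← Finset.add_sum_erase _ _ (Finset.mem_erase.mpr ⟨hP12.symm, hmem₂⟩)] at hsum
  set rest := ((IsDedekindDomain.primesOverFinset (IsLocalRing.maximalIdeal V)
    (integralClosure V L)).erase (primeOf V O₁ hO₁)).erase (primeOf V O₂ hO₂) with hrest
  have hcard : rest.card ≤ ∑ P ∈ rest, (IsLocalRing.maximalIdeal V).ramificationIdx' P *
      (IsLocalRing.maximalIdeal V).inertiaDeg' P := by
    rw [Finset.card_eq_sum_ones]
    refine Finset.sum_le_sum fun P hP => ?_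
    have hPm : P ∈ IsDedekindDomain.primesOverFinset (IsLocalRing.maximalIdeal V)
        (integralClosure V L) := Finset.mem_of_mem_erase (Finset.mem_of_mem_erase hP)
    obtain ⟨hPp, hPl⟩ := (IsDedekindDomain.mem_primesOverFinset_iff hp0 _).mp hPm
    haveI := hPp
    haveI := hPl
    exact Right.one_le_mul
      (Nat.pos_of_ne_zero (Ideal.IsDedekindDomain.ramificationIdx'_ne_zero_of_liesOver _ hp0))
      (Nat.pos_of_ne_zero (Ideal.inertiaDeg'_ne_zero _ _))
  have hA : (IsLocalRing.maximalIdeal V).ramificationIdx' (primeOf V O₁ hO₁) = 1 ∧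
      (IsLocalRing.maximalIdeal V).inertiaDeg' (primeOf V O₁ hO₁) = 1 ∧
      (IsLocalRing.maximalIdeal V).ramificationIdx' (primeOf V O₂ hO₂) = 1 ∧ rest.card = 0 := by
    generalize (IsLocalRing.maximalIdeal V).ramificationIdx' (primeOf V O₁ hO₁) = e₁ at *
    generalize (IsLocalRing.maximalIdeal V).inertiaDeg' (primeOf V O₁ hO₁) = f₁ at *
    generalize (IsLocalRing.maximalIdeal V).ramificationIdx' (primeOf V O₂ hO₂) = e₂ at *
    generalize (IsLocalRing.maximalIdeal V).inertiaDeg' (primeOf V O₂ hO₂) = f₂ at *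
    generalize (∑ P ∈ rest, (IsLocalRing.maximalIdeal V).ramificationIdx' P *
      (IsLocalRing.maximalIdeal V).inertiaDeg' P) = sr at *
    have h1 : 1 ≤ e₁ * f₁ := Right.one_le_mul (Nat.pos_of_ne_zero he₁) (Nat.pos_of_ne_zero hf₁)
    have h2 : q ≤ e₂ * f₂ := le_trans hf₂ (Nat.le_mul_of_pos_left _ (Nat.pos_of_ne_zero he₂))
    have h3 : e₁ * f₁ = 1 := by omega
    have h4 : e₂ * f₂ = q := by omega
    have h5 : rest.card = 0 := by omega
    refine ⟨Nat.eq_one_of_mul_eq_one_right h3, Nat.eq_one_of_mul_eq_one_left h3, ?_, h5⟩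
    have hq2 := hq.two_le
    have he₂' : 1 ≤ e₂ := Nat.pos_of_ne_zero he₂
    nlinarith
  have honly : ∀ P ∈ IsDedekindDomain.primesOverFinset (IsLocalRing.maximalIdeal V)
      (integralClosure V L), P = primeOf V O₁ hO₁ ∨ P = primeOf V O₂ hO₂ := by
    intro P hP
    by_contra hcon
    push Not at hcon
    have h1 : P ∈ rest := Finset.mem_erase.mpr ⟨hcon.2, Finset.mem_erase.mpr ⟨hcon.1, hP⟩⟩
    have h2 := Finset.card_pos.mpr ⟨P, h1⟩
    omega
  refine ⟨?_, ?_, ?_, ?_, ?_⟩
  · intro O' hO'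
    haveI := primeOf_isPrime V O' hO'
    haveI := primeOf_liesOver V O' hO'
    have hP'0 : primeOf V O' hO' ≠ ⊥ := Ideal.ne_bot_of_liesOver_of_ne_bot hp0 _
    rcases honly _ ((IsDedekindDomain.mem_primesOverFinset_iff hp0 _).mpr
      ⟨primeOf_isPrime V O' hO', primeOf_liesOver V O' hO'⟩) with h | h
    · left
      exact eq_of_primeOf_eq V O' O₁ hO' hO₁ hP'0 h
    · right
      exact eq_of_primeOf_eq V O' O₂ hO' hO₂ hP'0 h
  · intro g
    refine ⟨fun hg => ⟨mem_of_isIntegral V O₁ hO₁ hg, mem_of_isIntegral V O₂ hO₂ hg⟩, ?_⟩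
    rintro ⟨hg₁, hg₂⟩
    obtain ⟨a₁, s₁, hs₁, h₁⟩ := exists_frac V O₁ hO₁ hP₁0 hg₁
    obtain ⟨a₂, s₂, hs₂, h₂⟩ := exists_frac V O₂ hO₂ hP₂0 hg₂
    let I : Ideal (integralClosure V L) :=
      { carrier := {b | ∃ a : integralClosure V L, g * (b : L) = (a : L)}
        add_mem' := by
          rintro b c ⟨a, ha⟩ ⟨a', ha'⟩
          refine ⟨a + a', ?_⟩
          show g * ((b : L) + (c : L)) = (a : L) + (a' : L)
          rw [mul_add, ha, ha']
        zero_mem' := ⟨0, by simp⟩
        smul_mem' := by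
          rintro c b ⟨a, ha⟩
          refine ⟨c * a, ?_⟩
          show g * ((c : L) * (b : L)) = (c : L) * (a : L)
          rw [← ha]
          ring }
    have hI : I = ⊤ := by
      by_contra hI
      obtain ⟨M, hM, hIM⟩ := Ideal.exists_le_maximal I hI
      haveI := hM
      have hMp : M.LiesOver (IsLocalRing.maximalIdeal V) := by
        constructor
        exact (IsLocalRing.eq_maximalIdeal
          (Ideal.isMaximal_comap_of_isIntegral_of_isMaximal M)).symm
      rcases honly M ((IsDedekindDomain.mem_primesOverFinset_iff hp0 _).mpr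
        ⟨hM.isPrime, hMp⟩) with h | h
      · exact hs₁ (h ▸ hIM ⟨a₁, h₁⟩)
      · exact hs₂ (h ▸ hIM ⟨a₂, h₂⟩)
    have h1 : (1 : integralClosure V L) ∈ I := by
      rw [hI]
      trivial
    obtain ⟨a, ha⟩ := h1
    have h2 : g = (a : L) := by simpa using ha
    rw [h2]
    exact a.2
  · intro π hπ hgen g hg
    exact unif_of_ramificationIdx V O₁ hO₁ hP₁0 hA.1 π hπ hgen g hg
  · intro π hπ hgen g hg
    exact unif_of_ramificationIdx V O₂ hO₂ hP₂0 hA.2.2.1 π hπ hgen g hg
  · intro g hg
    obtain ⟨c, hc⟩ := exists_residue_rep V O₁ hO₁ hP₁0 hg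
    obtain ⟨v, hv⟩ := exists_sub_mem_of_inertiaDeg_eq_one (IsLocalRing.maximalIdeal V)
      (primeOf V O₁ hO₁) hA.2.1 c
    refine ⟨v, v.2, ?_⟩
    rw [mem_primeOf] at hv
    have h1 : g - algebraMap K L (v : K) = (g - (c : L)) + ((c : L) - algebraMap K L (v : K)) := by
      ring
    rw [h1]
    exact add_mem_nonunits O₁ hc hv

end main

end Fermat.Agent.S34.H6
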